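import Fermat.Agent.S48.Rat.Denom
import Fermat.Agent.S23.Main

/-!
# S48-RAT : consequences of the integral structure of `S₄(Γ₀(N))` (S23)
-/

set_option autoImplicit false

open UpperHalfPlane ModularForm CongruenceSubgroup
open scoped MatrixGroups Manifold

namespace Fermat.Agent.S48.Rat

variable {N : ℕ} [NeZero N]

theorem IntStr_qCoeff_eq {k : ℤ} (h : CuspForm (Gamma0 N) k) (n : ℕ) :
    ModularFormClass.qCoeff h n = S23.coeffMap N k h n := rfl

/-- elements of the integral lattice have integral coefficients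
(`Submodule.span_induction`, `S23.coeffMap` is linear). -/
theorem exists_int_of_mem_intLattice {k : ℤ} {h : CuspForm (Gamma0 N) k}
    (hh : h ∈ CuspForm.intLattice N k) (n : ℕ) :
    ∃ m : ℤ, ModularFormClass.qCoeff h n = (m : ℂ) := by
  unfold CuspForm.intLattice at hh
  induction hh using Submodule.span_induction with
  | mem x hx => exact hx n
  | zero => exact ⟨0, by rw [IntStr_qCoeff_eq, map_zero]; simp⟩
  | add x y _ _ hx hy =>
    obtain ⟨a, ha⟩ := hx
    obtain ⟨b, hb⟩ := hy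
    refine ⟨a + b, ?_⟩
    rw [IntStr_qCoeff_eq] at ha hb ⊢
    rw [map_add, Pi.add_apply, ha, hb]
    push_cast
    rfl
  | smul c x _ hx =>
    obtain ⟨a, ha⟩ := hx
    refine ⟨c * a, ?_⟩
    rw [IntStr_qCoeff_eq] at ha ⊢
    rw [map_zsmul, Pi.smul_apply, ha, zsmul_eq_mul]
    push_cast
    rfl

/-- PROOF. `S23.hasIntegralStructure N k : span ℂ (intLattice N k) = ⊤`; `Submodule.mem_span_set'`
writes `F = ∑ i, lam i • h i` with `h i ∈ intLattice`; `S23.coeffMap` is linear;
`exists_int_of_mem_intLattice`. -/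
theorem exists_int_combination {k : ℤ} (F : CuspForm (Gamma0 N) k) :
    ∃ (r : ℕ) (lam : Fin r → ℂ) (s : Fin r → ℕ → ℤ),
      ∀ n, ModularFormClass.qCoeff F n = ∑ i, lam i * (s i n : ℂ) := by
  have hF : F ∈ Submodule.span ℂ ((CuspForm.intLattice N k :
      Submodule ℤ (CuspForm (CongruenceSubgroup.Gamma0 N) k)) :
      Set (CuspForm (CongruenceSubgroup.Gamma0 N) k)) := by
    have h := S23.hasIntegralStructure N k
    unfold CuspForm.HasIntegralStructure at h
    rw [h]
    exact Submodule.mem_top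
  obtain ⟨r, lam, g, hg⟩ := Submodule.mem_span_set'.1 hF
  choose s hs using fun (i : Fin r) (n : ℕ) => exists_int_of_mem_intLattice (g i).2 n
  refine ⟨r, lam, s, fun n => ?_⟩
  rw [IntStr_qCoeff_eq, ← hg, map_sum, Finset.sum_apply]
  refine Finset.sum_congr rfl fun i _ => ?_
  rw [map_smul, Pi.smul_apply, smul_eq_mul, ← IntStr_qCoeff_eq, hs]

/-- PROOF. `exists_int_combination`, apply the additive retraction `π` of `exists_retraction`:
`φ n = π (ι (φ n)) = ∑ i, π (lam i * s i n) = ∑ i, π (lam i) * s i n` (`map_zsmul`). -/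
theorem exists_int_combination_Qb {k : ℤ} (F : CuspForm (Gamma0 N) k) (ι : Qb →+* ℂ)
    (φ : ℕ → Qb) (hφ : ∀ n, ι (φ n) = ModularFormClass.qCoeff F n) :
    ∃ (r : ℕ) (m : Fin r → Qb) (s : Fin r → ℕ → ℤ), ∀ n, φ n = ∑ i, m i * (s i n : Qb) := by
  obtain ⟨r, lam, s, hs⟩ := exists_int_combination F
  obtain ⟨π, hπ⟩ := exists_retraction ι
  refine ⟨r, fun i => π (lam i), s, fun n => ?_⟩
  rw [← hπ (φ n), hφ, hs, map_sum]
  refine Finset.sum_congr rfl fun i _ => ?_
  rw [mul_comm, ← zsmul_eq_mul, map_zsmul, zsmul_eq_mul, mul_comm]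

end Fermat.Agent.S48.Rat
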