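import Fermat.Agent.S48.Rat.EisAlg
import Fermat.Agent.S48.Rat.IntStr

/-!
# S48-RAT : `AlgStatement`
-/

set_option autoImplicit false

open UpperHalfPlane ModularForm CongruenceSubgroup
open scoped MatrixGroups Manifold

namespace Fermat.Agent.S48.Rat

open Fermat.Agent.S23 (Nice IsMF G0)

/-- the nebentypus of the depleted form, as a Dirichlet character. -/
theorem HasNeb.changeLevel {N N' : ℕ} (hNN' : N ∣ N') (ε : DirichletCharacter ℂ N) {k : ℤ}
    {F : ℍ → ℂ} (hF : HasNeb N' k (fun x => ε (ZMod.castHom hNN' (ZMod N) x)) F) :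
    HasNeb N' k (DirichletCharacter.changeLevel hNN' ε) F := by
  refine HasNeb.congr (fun x hx => ?_) hF
  obtain ⟨u, rfl⟩ := hx
  rw [DirichletCharacter.changeLevel_eq_cast_of_dvd ε hNN' u]
  rfl

/-- coefficients of a product. -/
theorem qCoeff_mul {F G H : ℍ → ℂ} (hF : Nice F) (hG : Nice G) (hH : H = F * G) (n : ℕ) :
    ModularFormClass.qCoeff H n = ∑ x ∈ Finset.HasAntidiagonal.antidiagonal n,
      ModularFormClass.qCoeff F x.1 * ModularFormClass.qCoeff G x.2 := by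
  subst hH
  unfold ModularFormClass.qCoeff
  rw [hF.qx_mul hG, PowerSeries.coeff_mul]

theorem alg_of (hNeb : NebStatement) (hDepl : DeplStatement) : AlgStatement := by
  intro N _ ε f h ι
  have hneb := hNeb N ε f h
  have halgp : ∀ p : ℕ, p.Prime → ¬ p ∣ N → IsAlgebraic ℚ (ModularFormClass.qCoeff f p) :=
    fun p hp hpN => isAlgebraic_qCoeff_prime h hneb hp hpN
  obtain ⟨N', hNN', f', hN'0, -, hneb', hcoef⟩ := hDepl N ε f hneb
  haveI : NeZero N' := ⟨hN'0⟩
  set ε' : DirichletCharacter ℂ N' := DirichletCharacter.changeLevel hNN' ε with hε'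
  have hneb'' : HasNeb N' 1 ε' f' := HasNeb.changeLevel hNN' ε hneb'
  have hf'1 : ModularFormClass.qCoeff f' 1 = 1 := by
    rw [hcoef, if_pos (Nat.coprime_one_left N), h.one]
  have hf'0 : (f' : ℍ → ℂ) ≠ 0 := by
    intro h0
    rw [ModularFormClass.qCoeff, h0, qExpansion_zero] at hf'1
    simp at hf'1
  have hodd : ε'⁻¹ (-1) = -1 := inv_neg_one (HasNeb.neg_one hneb'' hf'0)
  obtain ⟨E, hEneb, hEcoef⟩ := exists_eis3 ε'⁻¹ hodd
  obtain ⟨F, hF⟩ := exists_cuspForm_mul ε' f' hneb'' E hEneb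
  have halg' : ∀ n, IsAlgebraic ℚ (ModularFormClass.qCoeff f' n) := by
    intro n
    rw [hcoef]
    split_ifs with hn
    · exact isAlgebraic_qCoeff_coprime h halgp n hn
    · exact isAlgebraic_zero
  choose α hα using fun n => exists_preimage_of_isAlgebraic ι (halg' n)
  choose γ hγ using fun n => exists_preimage_of_isAlgebraic ι (isAlgebraic_eisCoeff ε'⁻¹ n)
  have hγ0 : γ 0 = 0 := ι.injective (by rw [hγ, eisCoeff_zero, map_zero])
  have hγ1 : γ 1 = 1 := ι.injective (by rw [hγ, eisCoeff_one, map_one])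
  have hγint : ∀ n, IsIntegral ℤ (γ n) := fun n =>
    isIntegral_of_map ι (by rw [hγ]; exact isIntegral_eisCoeff _ n)
  obtain ⟨K₀, hK₀, hγK⟩ := exists_field_eisCoeff ε'⁻¹ ι γ hγ
  have hφ : ∀ n : ℕ, ι (∑ x ∈ Finset.HasAntidiagonal.antidiagonal n, α x.1 * γ x.2) =
      ModularFormClass.qCoeff F n := by
    intro n
    rw [qCoeff_mul (nice_cuspForm1 f') (nice_modularForm1 E) hF n, map_sum]
    refine Finset.sum_congr rfl fun x _ => ?_
    rw [map_mul, hα, hγ, hEcoef]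
  obtain ⟨r, m, s, hms⟩ := exists_int_combination_Qb F ι _ hφ
  obtain ⟨K, D, hK, hD, hKD⟩ := exists_field_denom α γ hγ0 hγ1 hγint K₀ hK₀ hγK m s hms
  refine ⟨α, K, D, hK, hD, fun p hp hpN => ⟨?_, (hKD p).1, (hKD p).2⟩⟩
  rw [hα, hcoef, if_pos ((Nat.Prime.coprime_iff_not_dvd hp).2 hpN)]

end Fermat.Agent.S48.Rat
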