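import Mathlib
import Fermat.Agent.S48.Iface
import Fermat.Agent.Lib.AutExt

/-!
# S48-RAT : pure algebra in `ℚ̄` (number field + common denominator)
-/

set_option autoImplicit false

namespace Fermat.Agent.S48.Rat

theorem Denom_isAlgebraic : Algebra.IsAlgebraic ℚ Qb := AlgebraicClosure.isAlgebraic ℚ

/-- every algebraic number has a denominator. [`exists_integral_multiple`] -/
theorem exists_denominator (x : Qb) : ∃ D : ℕ, D ≠ 0 ∧ IsIntegral ℤ ((D : Qb) * x) := by
  have := Denom_isAlgebraic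
  have hx : IsAlgebraic ℤ x :=
    (IsFractionRing.isAlgebraic_iff ℤ ℚ Qb).2 (Algebra.IsAlgebraic.isAlgebraic x)
  obtain ⟨y, hy0, hy⟩ := hx.exists_integral_multiple
  refine ⟨y.natAbs, Int.natAbs_ne_zero.2 hy0, ?_⟩
  rcases Int.natAbs_eq y with h | h
  · have e : ((y.natAbs : ℕ) : Qb) * x = y • x := by
      rw [zsmul_eq_mul]
      congr 1
      conv_rhs => rw [h]
      simp
    rw [e]; exact hy
  · have e : ((y.natAbs : ℕ) : Qb) * x = -(y • x) := by
      rw [zsmul_eq_mul, ← neg_mul]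
      congr 1
      conv_rhs => rw [h]
      simp
    rw [e]; exact hy.neg

/-- a finite family has a common denominator and lies in a number field. -/
theorem exists_field_denom_finite {r : ℕ} (m : Fin r → Qb) :
    ∃ (K : IntermediateField ℚ Qb) (D : ℕ), FiniteDimensional ℚ K ∧ D ≠ 0 ∧
      ∀ i, m i ∈ K ∧ IsIntegral ℤ ((D : Qb) * m i) := by
  have := Denom_isAlgebraic
  choose d hd0 hd using fun i => exists_denominator (m i)
  refine ⟨IntermediateField.adjoin ℚ (Set.range m), ∏ i, d i, ?_, ?_, fun i => ⟨?_, ?_⟩⟩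
  · exact IntermediateField.finiteDimensional_adjoin
      (fun x _ => (Algebra.IsAlgebraic.isAlgebraic x).isIntegral)
  · exact Finset.prod_ne_zero_iff.2 fun i _ => hd0 i
  · exact IntermediateField.subset_adjoin _ _ ⟨i, rfl⟩
  · rw [← Finset.mul_prod_erase Finset.univ d (Finset.mem_univ i)]
    push_cast
    have e : (d i : Qb) * (∏ j ∈ Finset.univ.erase i, (d j : Qb)) * m i =
        (∏ j ∈ Finset.univ.erase i, (d j : Qb)) * ((d i : Qb) * m i) := by ring
    rw [e]
    refine IsIntegral.mul ?_ (hd i)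
    exact IsIntegral.prod _ fun j _ => isIntegral_natCast _

/-- PROOF. `K₁, D` from `exists_field_denom_finite m`; `K := K₀ ⊔ K₁`
(`IntermediateField.finiteDimensional_sup`).  With `φ n := ∑ i, m i * s i n ∈ K₁`, `D φ n` integral.
The hypothesis at `n + 1` reads `φ (n+1) = α n + ∑_{i < n} α i * γ (n + 1 - i)` (the terms
`(n, 1)`: `γ 1 = 1`, and `(n+1, 0)`: `γ 0 = 0`), so `α n = φ (n+1) - ∑_{i<n} α i γ (n+1-i)`:
strong induction on `n`. -/
theorem exists_field_denom (α γ : ℕ → Qb) (hγ0 : γ 0 = 0) (hγ1 : γ 1 = 1)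
    (hγint : ∀ n, IsIntegral ℤ (γ n)) (K₀ : IntermediateField ℚ Qb) (hK₀ : FiniteDimensional ℚ K₀)
    (hγK : ∀ n, γ n ∈ K₀) {r : ℕ} (m : Fin r → Qb) (s : Fin r → ℕ → ℤ)
    (hφ : ∀ n : ℕ, ∑ x ∈ Finset.HasAntidiagonal.antidiagonal n, α x.1 * γ x.2 =
      ∑ i, m i * (s i n : Qb)) :
    ∃ (K : IntermediateField ℚ Qb) (D : ℕ), FiniteDimensional ℚ K ∧ D ≠ 0 ∧
      ∀ n, α n ∈ K ∧ IsIntegral ℤ ((D : Qb) * α n) := by
  obtain ⟨K₁, D, hK₁, hD, hm⟩ := exists_field_denom_finite m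
  refine ⟨K₀ ⊔ K₁, D, IntermediateField.finiteDimensional_sup K₀ K₁, hD, ?_⟩
  have hle0 : K₀ ≤ K₀ ⊔ K₁ := le_sup_left
  have hle1 : K₁ ≤ K₀ ⊔ K₁ := le_sup_right
  -- the recursion
  have hrec : ∀ n : ℕ, α n = ∑ i, m i * (s i (n + 1) : Qb) -
      ∑ j ∈ Finset.range n, α j * γ (n + 1 - j) := by
    intro n
    have h1 := hφ (n + 1)
    rw [Finset.Nat.sum_antidiagonal_eq_sum_range_succ (fun i j => α i * γ j) (n + 1),
      Finset.sum_range_succ, Finset.sum_range_succ] at h1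
    simp only [Nat.sub_self, hγ0, mul_zero, add_zero, Nat.add_sub_cancel_left, hγ1, mul_one] at h1
    rw [← h1]
    ring
  intro n
  induction n using Nat.strong_induction_on with
  | _ n ih =>
    rw [hrec n]
    constructor
    · refine sub_mem (sum_mem fun i _ => mul_mem (hle1 (hm i).1) (intCast_mem _ _))
        (sum_mem fun j hj => mul_mem (ih j (Finset.mem_range.1 hj)).1 (hle0 (hγK _)))
    · rw [mul_sub, Finset.mul_sum, Finset.mul_sum]
      refine IsIntegral.sub (IsIntegral.sum _ fun i _ => ?_) (IsIntegral.sum _ fun j hj => ?_)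
      · rw [← mul_assoc]
        exact (hm i).2.mul isIntegral_algebraMap
      · rw [← mul_assoc]
        exact (ih j (Finset.mem_range.1 hj)).2.mul (hγint _)

/-- an additive retraction of an embedding `ℚ̄ → ℂ`.
[`ι` is an injective `ℚ`-linear map: `LinearMap.exists_leftInverse_of_injective`] -/
theorem exists_retraction (ι : Qb →+* ℂ) : ∃ π : ℂ →+ Qb, ∀ x, π (ι x) = x := by
  let f : Qb →ₗ[ℚ] ℂ := ι.toRatAlgHom.toLinearMap
  have hf : LinearMap.ker f = ⊥ := by
    rw [LinearMap.ker_eq_bot]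
    exact ι.injective
  obtain ⟨g, hg⟩ := f.exists_leftInverse_of_injective hf
  exact ⟨g.toAddMonoidHom, fun x => DFunLike.congr_fun hg x⟩

/-- algebraic numbers are in the image of `ι`. -/
theorem exists_preimage_of_isAlgebraic (ι : Qb →+* ℂ) {z : ℂ} (hz : IsAlgebraic ℚ z) :
    ∃ x : Qb, ι x = z := by
  let _ : Algebra Qb ℂ := ι.toAlgebra
  have : IsScalarTower ℚ Qb ℂ := IsScalarTower.of_algebraMap_eq fun q => by
    rw [RingHom.algebraMap_toAlgebra]
    simp
  have h1 : IsAlgebraic Qb z := hz.tower_top Qb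
  obtain ⟨x, hx⟩ := Lib.AutExt.mem_range_algebraMap_of_isAlgebraic (k := Qb) z h1
  exact ⟨x, hx⟩

/-- integrality descends along `ι`. -/
theorem isIntegral_of_map (ι : Qb →+* ℂ) {x : Qb} (h : IsIntegral ℤ (ι x)) : IsIntegral ℤ x := by
  obtain ⟨p, hp, hpx⟩ := h
  refine ⟨p, hp, ι.injective ?_⟩
  rw [map_zero, ← hpx, Polynomial.hom_eval₂]
  congr 1
  exact Subsingleton.elim _ _

end Fermat.Agent.S48.Rat
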