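import Fermat.Agent.S48.Rat.Conj
import Fermat.Agent.S48.Rat.Denom

/-!
# S48-RAT : `RankinStatement`
-/

set_option autoImplicit false

open UpperHalfPlane ModularForm CongruenceSubgroup
open scoped MatrixGroups Manifold

namespace Fermat.Agent.S48.Rat

/-- an embedding of `ℚ̄` in `ℂ` as an isomorphism onto the field of algebraic numbers. -/
theorem Rankin_exists_equiv (ι : Qb →+* ℂ) :
    ∃ e : Qb ≃+* algebraicClosure ℚ ℂ, ∀ x, ((e x : algebraicClosure ℚ ℂ) : ℂ) = ι x := by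
  have := Denom_isAlgebraic
  let ι' : Qb →ₐ[ℚ] ℂ := ι.toRatAlgHom
  have hmem : ∀ x, ι x ∈ (algebraicClosure ℚ ℂ).toSubfield.toSubring := fun x =>
    mem_algebraicClosure_iff.mpr ((Algebra.IsAlgebraic.isAlgebraic x).algHom ι')
  let f : Qb →+* algebraicClosure ℚ ℂ := ι.codRestrict (algebraicClosure ℚ ℂ).toSubfield.toSubring hmem
  have hinj : Function.Injective f := f.injective
  have hsurj : Function.Surjective f := by
    intro z
    obtain ⟨x, hx⟩ := exists_preimage_of_isAlgebraic ι (mem_algebraicClosure_iff.mp z.2)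
    exact ⟨x, Subtype.ext hx⟩
  exact ⟨RingEquiv.ofBijective f ⟨hinj, hsurj⟩, fun x => rfl⟩

/-- PROOF. `A := algebraicClosure ℚ ℂ`; `ι` and `j` are isomorphisms of `ℚ̄` onto `A`
(both are `ℚ`-algebra maps, `ℚ̄` is algebraic over `ℚ` and algebraically closed), so
`τ := j ∘ ι⁻¹ : A ≃ₐ[ℚ] A`; extend `τ` to `ℂ` by `Lib.AutExt.exists_algEquiv_extending`. -/
theorem exists_ringEquiv_comp (ι j : Qb →+* ℂ) : ∃ σ : ℂ ≃+* ℂ, ∀ x, σ (ι x) = j x := by
  obtain ⟨e1, h1⟩ := Rankin_exists_equiv ι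
  obtain ⟨e2, h2⟩ := Rankin_exists_equiv j
  let τ : algebraicClosure ℚ ℂ ≃ₐ[ℚ] algebraicClosure ℚ ℂ :=
    AlgEquiv.ofRingEquiv (f := e1.symm.trans e2) (fun q => by simp)
  obtain ⟨σ, hσ⟩ := Lib.AutExt.exists_algEquiv_extending (k := ℚ) (Ω := ℂ) (algebraicClosure ℚ ℂ) τ
  refine ⟨σ.toRingEquiv, fun x => ?_⟩
  have h3 := hσ (e1 x)
  rw [h1] at h3
  show σ (ι x) = j x
  rw [h3, ← h2]
  show ((e2 (e1.symm (e1 x)) : algebraicClosure ℚ ℂ) : ℂ) = _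
  rw [RingEquiv.symm_apply_apply]

theorem rankin_of (hNeb : NebStatement) (hMS : MSStatement) : RankinStatement := by
  intro N _ ε f h ι a ha j
  obtain ⟨σ, hσ⟩ := exists_ringEquiv_comp ι j
  obtain ⟨g, -, hg⟩ := exists_conj_neb ε f (hNeb N ε f h) σ
  obtain ⟨C, hC⟩ := hMS N _ g (Hyp.conj h σ hg)
  refine ⟨C, fun s hs1 hs2 F hF => ?_⟩
  have h1 := hC s hs1 hs2 F hF
  have h2 : ∑ p ∈ F, ‖j (a p)‖ ^ 2 * (p : ℝ) ^ (-s) =
      ∑ p ∈ F, ‖ModularFormClass.qCoeff g p‖ ^ 2 * (p : ℝ) ^ (-s) := by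
    refine Finset.sum_congr rfl fun p hp => ?_
    rw [hg, ← ha p (hF p hp).1 (hF p hp).2, hσ]
  rw [h2]
  exact h1

end Fermat.Agent.S48.Rat
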