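import Fermat.Agent.S48.Rat.Prod
import Fermat.Agent.S23.Transport

/-!
# S48-RAT : conjugation of cusp forms of weight one with nebentypus by automorphisms of `ℂ`
-/

set_option autoImplicit false

open UpperHalfPlane ModularForm CongruenceSubgroup
open scoped MatrixGroups Manifold

namespace Fermat.Agent.S48.Rat

open Fermat.Agent.S23 (Nice IsMF G0)

variable {N : ℕ} [NeZero N]

theorem eisCoeff_ringHomComp (χ : DirichletCharacter ℂ N) (σ : ℂ ≃+* ℂ) (n : ℕ) :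
    eisCoeff (χ.ringHomComp (σ : ℂ →+* ℂ)) n = σ (eisCoeff χ n) := by
  unfold eisCoeff
  rw [map_sum]
  refine Finset.sum_congr rfl fun d _ => ?_
  rw [MulChar.ringHomComp_apply, map_mul σ, map_pow σ, map_natCast σ]
  rfl

theorem inv_ringHomComp (χ : DirichletCharacter ℂ N) (σ : ℂ ≃+* ℂ) :
    (χ.ringHomComp (σ : ℂ →+* ℂ))⁻¹ = χ⁻¹.ringHomComp (σ : ℂ →+* ℂ) := by
  ext a
  rw [MulChar.inv_apply_eq_inv', MulChar.ringHomComp_apply, MulChar.ringHomComp_apply,
    MulChar.inv_apply_eq_inv', map_inv₀]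

/-- the pointwise inverse of the function underlying a character. -/
theorem Conj_coe_inv (χ : DirichletCharacter ℂ N) : (⇑χ)⁻¹ = ⇑(χ⁻¹) := by
  funext a
  rw [Pi.inv_apply, MulChar.inv_apply_eq_inv']

/-- a cusp form on `Γ₁(N)` is a root of a monic polynomial whose lower coefficients are
level one forms vanishing at `i∞` (copy of `S23.exists_monic_relation`). -/
theorem Conj_exists_monic_relation (k : ℤ) (f : CuspForm (Gamma1 N) k) :
    ∃ (d : ℕ) (e : Fin d → ℍ → ℂ), (∀ r : Fin d, IsMF 𝒮ℒ (((r : ℕ) + 1 : ℕ) * k) (e r)) ∧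
      (∀ r, IsZeroAtImInfty (e r)) ∧
      (f : ℍ → ℂ) ^ d + ∑ r : Fin d, e r * (f : ℍ → ℂ) ^ (d - 1 - (r : ℕ)) = 0 := by
  obtain ⟨e, he⟩ := S23.exists_monic_relation_cuspForm 𝒮ℒ f
  refine ⟨_, fun r => e r, fun r => ?_, fun r => ?_, ?_⟩
  · exact IsMF.cast (by push_cast; ring)
      (IsMF.of (⟨(e r).toSlashInvariantForm, (e r).holo', fun hc =>
        ModularFormClass.bdd_at_cusps (e r) hc⟩ : ModularForm 𝒮ℒ _))
  · exact CuspFormClass.zero_at_infty (e r)
  · funext z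
    simpa [Finset.sum_apply] using he z

/-- **Conjugation.**  PROOF (compare `Fermat.Agent.S23.exists_conj` in `S23/Transport.lean`, of which
this is a simplified copy).  If `f = 0` take `g = 0`.  Otherwise `ε(-1) = -1` (`HasNeb.neg_one`).
* `E`  := `exists_eis3 ε⁻¹`, `E'` := `exists_eis3 (ε⁻¹.ringHomComp σ)`; `qExp E' = σ(qExp E)`
  (`eisCoeff_ringHomComp`), `E' ≠ 0` (`eisCoeff_one`).
* `F := f E ∈ S₄(Γ₀(N))` (`exists_cuspForm_mul`), `G := F^σ ∈ S₄(Γ₀(N))` (`S23.exists_conj N 4 σ F`).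
* monic relation `f^d + ∑ e_r f^(d-1-r) = 0` with level one cusp forms `e_r`
  (`S23.exists_monic_relation_cuspForm 𝒮ℒ f`), conjugates `e'_r` (`S23.levelOne_exists_conj`), which
  vanish at `i∞` (`Nice.isZeroAtImInfty_iff`).
* `G^d + ∑ e'_r G^(d-1-r) E'^(r+1) = 0` by comparison of `q`-expansions (`Nice.eq_of_qx_eq`).
* `S23.exists_cuspForm_qExpansion_of_monic_relation` with `𝒢 = Γ₁(N)`, `h = 1`, `k = 1`, `w = 3`,
  `C = G`, `D = E'` gives `g ∈ S₁(Γ₁(N))`, `g E' = G`, `qExp g * qExp E' = qExp G`; cancel `qExp E'`.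
* nebentypus: `hasNeb_of_mul_eq`. -/
theorem exists_conj_neb (ε : DirichletCharacter ℂ N) (f : CuspForm (Gamma1 N) 1)
    (hf : HasNeb N 1 ε f) (σ : ℂ ≃+* ℂ) :
    ∃ g : CuspForm (Gamma1 N) 1, HasNeb N 1 (ε.ringHomComp (σ : ℂ →+* ℂ)) g ∧
      ∀ n : ℕ, ModularFormClass.qCoeff g n = σ (ModularFormClass.qCoeff f n) := by
  by_cases hf0 : (f : ℍ → ℂ) = 0
  · refine ⟨0, ?_, fun n => ?_⟩
    · intro γ _
      rw [FunLike.coe_zero, SlashAction.zero_slash, smul_zero]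
    · unfold ModularFormClass.qCoeff
      rw [hf0, FunLike.coe_zero, qExpansion_zero]
      simp
  have hε : ε (-1) = -1 := HasNeb.neg_one hf hf0
  have h1 : ε⁻¹ (-1) = -1 := by
    rw [MulChar.inv_apply_eq_inv', hε, inv_neg_one]
  have h2 : (ε⁻¹.ringHomComp (σ : ℂ →+* ℂ)) (-1) = -1 := by
    rw [MulChar.ringHomComp_apply, h1]
    simp
  obtain ⟨E, hEneb, hEq⟩ := exists_eis3 ε⁻¹ h1
  obtain ⟨E', hE'neb, hE'q⟩ := exists_eis3 (ε⁻¹.ringHomComp (σ : ℂ →+* ℂ)) h2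
  have nf : Nice f := nice_cuspForm1 f
  have nE : Nice E := nice_modularForm1 E
  have nE' : Nice E' := nice_modularForm1 E'
  have qE' : qExpansion 1 E' = (qExpansion 1 E).map (σ : ℂ →+* ℂ) := by
    ext n
    have h3 := hE'q n
    have h4 := hEq n
    unfold ModularFormClass.qCoeff at h3 h4
    rw [h3, eisCoeff_ringHomComp, ← h4, PowerSeries.coeff_map]
    rfl
  have hE'0 : (E' : ℍ → ℂ) ≠ 0 := by
    intro h0
    have h3 := hE'q 1
    unfold ModularFormClass.qCoeff at h3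
    rw [h0, qExpansion_zero, eisCoeff_one] at h3
    simp at h3
  obtain ⟨F, hF⟩ := exists_cuspForm_mul ε f hf E hEneb
  obtain ⟨G, hG⟩ := S23.exists_conj N 4 σ F
  have nG : Nice G := S23.nice_cuspForm G
  obtain ⟨d, e, he, he0, hmon⟩ := Conj_exists_monic_relation 1 f
  choose e' he' qe' using fun r => S23.levelOne_exists_conj σ (he r)
  set φ : PowerSeries ℂ := (qExpansion 1 f).map (σ : ℂ →+* ℂ) with hφ
  have qG : qExpansion 1 G = qExpansion 1 E' * φ := by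
    ext n
    rw [hG n, hF, nf.qx_mul nE, qE', hφ, ← map_mul, PowerSeries.coeff_map, mul_comm]
    rfl
  -- the transported relation
  have hφrel : φ ^ d + ∑ r : Fin d, qExpansion 1 (e' r) * φ ^ (d - 1 - (r : ℕ)) = 0 := by
    have h1 := congrArg (fun F => (qExpansion 1 F).map (σ : ℂ →+* ℂ)) hmon
    rw [(nf.pow d).qx_add (Nice.sum _ fun r _ => (he r).nice_SL.mul (nf.pow _)), nf.qx_pow,
      Nice.qx_sum _ (fun r _ => (he r).nice_SL.mul (nf.pow _)), qExpansion_zero, map_add,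
      map_pow, map_sum, map_zero] at h1
    rw [← h1]
    congr 1
    refine Finset.sum_congr rfl fun r _ => ?_
    rw [(he r).nice_SL.qx_mul (nf.pow _), nf.qx_pow, map_mul, map_pow, qe' r]
  have hrel : (G : ℍ → ℂ) ^ d + ∑ r : Fin d,
      e' r * (G : ℍ → ℂ) ^ (d - 1 - (r : ℕ)) * (E' : ℍ → ℂ) ^ ((r : ℕ) + 1) = 0 := by
    have nterm : ∀ r : Fin d,
        Nice (e' r * (G : ℍ → ℂ) ^ (d - 1 - (r : ℕ)) * (E' : ℍ → ℂ) ^ ((r : ℕ) + 1)) :=
      fun r => ((he' r).nice_SL.mul (nG.pow _)).mul (nE'.pow _)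
    apply ((nG.pow d).add (Nice.sum _ fun r _ => nterm r)).eq_of_qx_eq Nice.zero
    rw [(nG.pow d).qx_add (Nice.sum _ fun r _ => nterm r), nG.qx_pow,
      Nice.qx_sum _ (fun r _ => nterm r), qExpansion_zero, qG]
    have : (qExpansion 1 E' * φ) ^ d + ∑ r : Fin d,
        qExpansion 1 (e' r * (G : ℍ → ℂ) ^ (d - 1 - (r : ℕ)) * (E' : ℍ → ℂ) ^ ((r : ℕ) + 1)) =
        qExpansion 1 E' ^ d * (φ ^ d + ∑ r : Fin d, qExpansion 1 (e' r) * φ ^ (d - 1 - (r : ℕ))) := by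
      rw [mul_add, Finset.mul_sum, mul_pow]
      congr 1
      refine Finset.sum_congr rfl fun r _ => ?_
      rw [((he' r).nice_SL.mul (nG.pow _)).qx_mul (nE'.pow _),
        (he' r).nice_SL.qx_mul (nG.pow _), nG.qx_pow, nE'.qx_pow, qG, mul_pow]
      rw [S23.pow_split (qExpansion 1 E') r]
      ring
    rw [this, hφrel, mul_zero]
  have he'0 : ∀ r, IsZeroAtImInfty (e' r) := by
    intro r
    rw [(he' r).nice_SL.isZeroAtImInfty_iff, qe' r, PowerSeries.coeff_map,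
      ((he r).nice_SL.isZeroAtImInfty_iff).mp (he0 r), map_zero]
  obtain ⟨G', hG'⟩ := exists_modularForm1_of_cuspForm0 (w := 1 + 3) G
  have hE'0' : E' ≠ 0 := fun h => hE'0 (by rw [h]; rfl)
  obtain ⟨g, hgE, hgq⟩ := S23.exists_cuspForm_qExpansion_of_monic_relation (𝒢 := G1 N) one_pos
    (one_mem_strictPeriods_G1 N) (k := 1) (w := 3) G' E' hE'0' e'
    (fun r => (he' r).nice_SL.holo)
    (fun r γ => S23.slash_SL_of_isMF ((he' r).cast (by push_cast; ring)) γ) he'0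
    (fun z => by
      have h3 := congrFun hrel z
      simp only [Pi.add_apply, Pi.pow_apply, Finset.sum_apply, Pi.mul_apply, Pi.zero_apply] at h3
      rw [hG']
      exact h3)
  refine ⟨g, ?_, fun n => ?_⟩
  · refine hasNeb_of_mul_eq (ε.ringHomComp (σ : ℂ →+* ℂ)) (g := g) (E := E') (G := G) g.holo'
      E'.holo' hE'0 ?_ ?_ ?_
    · rw [inv_ringHomComp]
      exact hE'neb
    · intro γ hγ
      exact G.slash_action_eq' _ ⟨γ, hγ, rfl⟩
    · funext z
      rw [Pi.mul_apply, hgE z, hG']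
  · have h3 : qExpansion 1 g * qExpansion 1 E' = φ * qExpansion 1 E' := by
      rw [hgq, hG', qG, mul_comm]
    have h4 : qExpansion 1 E' ≠ 0 := fun h => hE'0 (nE'.qx_eq_zero_iff.mp h)
    have h5 : qExpansion 1 g = φ := mul_right_cancel₀ h4 h3
    unfold ModularFormClass.qCoeff
    rw [h5, hφ, PowerSeries.coeff_map]
    rfl

/-- the hypotheses of S48 are stable under conjugation. -/
theorem Hyp.conj {ε : DirichletCharacter ℂ N} {f g : CuspForm (Gamma1 N) 1} (h : Hyp N ε f)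
    (σ : ℂ ≃+* ℂ) (hg : ∀ n : ℕ, ModularFormClass.qCoeff g n = σ (ModularFormClass.qCoeff f n)) :
    Hyp N (ε.ringHomComp (σ : ℂ →+* ℂ)) g := by
  refine ⟨by rw [hg, h.one, map_one], fun p hp hpN n => ?_⟩
  have h1 := congrArg σ (h.hecke p hp hpN n)
  rw [map_add, map_mul, map_mul, apply_ite σ, map_zero] at h1
  rw [hg, hg, hg, hg, MulChar.ringHomComp_apply]
  exact h1

end Fermat.Agent.S48.Rat
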