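import Fermat.Agent.S48.Rat.Indep
import Fermat.Agent.S48.Rat.Conj
import Fermat.Agent.Lib.AutExt

/-!
# S48-RAT : the eigenvalues `a_p` are algebraic numbers
-/

set_option autoImplicit false

open UpperHalfPlane ModularForm CongruenceSubgroup
open scoped MatrixGroups Manifold

namespace Fermat.Agent.S48.Rat

variable {N : ℕ} [NeZero N]

/-- the formal Hecke operator `T_p` with nebentypus value `e` on `ℂ⟦q⟧`. -/
noncomputable def formalT (p : ℕ) (e : ℂ) : PowerSeries ℂ →ₗ[ℂ] PowerSeries ℂ where
  toFun φ := PowerSeries.mk fun n =>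
    PowerSeries.coeff (p * n) φ + e * (if p ∣ n then PowerSeries.coeff (n / p) φ else 0)
  map_add' φ ψ := by
    ext n
    simp only [PowerSeries.coeff_mk, map_add]
    split_ifs <;> ring
  map_smul' c φ := by
    ext n
    simp only [PowerSeries.coeff_mk, map_smul, smul_eq_mul, RingHom.id_apply]
    split_ifs <;> ring

/-- values of Dirichlet characters are integral (`0` or roots of unity). -/
theorem isIntegral_dirichlet (ε : DirichletCharacter ℂ N) (x : ZMod N) : IsIntegral ℤ (ε x) := by
  by_cases hx : IsUnit x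
  · obtain ⟨u, rfl⟩ := hx
    refine IsIntegral.of_pow (Nat.totient_pos.2 (NeZero.pos N)) ?_
    rw [← map_pow, ← Units.val_pow_eq_pow_val, ZMod.pow_totient, Units.val_one, map_one]
    exact isIntegral_one
  · rw [ε.map_nonunit hx]
    exact isIntegral_zero

theorem isAlgebraic_dirichlet (ε : DirichletCharacter ℂ N) (x : ZMod N) : IsAlgebraic ℚ (ε x) := by
  exact ((isIntegral_dirichlet ε x).tower_top (A := ℚ)).isAlgebraic

/-- an automorphism fixing the algebraic numbers fixes the Dirichlet characters. -/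
theorem ringHomComp_eq_self (ε : DirichletCharacter ℂ N) (σ : ℂ ≃+* ℂ)
    (hσ : ∀ a : ℂ, IsAlgebraic ℚ a → σ a = a) : ε.ringHomComp (σ : ℂ →+* ℂ) = ε := by
  ext a
  rw [MulChar.ringHomComp_apply]
  exact hσ _ (isAlgebraic_dirichlet ε a)

/-- the Hecke relation says that `qExp f` is an eigenvector of the formal operator. -/
theorem Hyp.formalT_eq {ε : DirichletCharacter ℂ N} {f : CuspForm (Gamma1 N) 1} (h : Hyp N ε f)
    {p : ℕ} (hp : p.Prime) (hpN : ¬ p ∣ N) :
    formalT p (ε (p : ZMod N)) (qExpansion 1 f) = ModularFormClass.qCoeff f p • qExpansion 1 f := by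
  ext n
  simp only [formalT, LinearMap.coe_mk, AddHom.coe_mk, PowerSeries.coeff_mk, map_smul, smul_eq_mul]
  exact h.hecke p hp hpN n

/-- PROOF. Otherwise `x = a_p` is transcendental; for `k : ℕ` let `σ_k` fix all algebraic numbers
with `σ_k x = x + k` (`Lib.AutExt.exists_ringEquiv_fixing_algebraic`), `g k := f^{σ_k}`
(`exists_conj_neb`), which has nebentypus `ε` (`ringHomComp_eq_self`) and satisfies `Hyp N ε (g k)`
(`Hyp.conj`).  By `Hyp.formalT_eq` the `qExp (g k)` are eigenvectors (nonzero: coefficient `1` at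
`q`) of `formalT p (ε p)` with the pairwise distinct eigenvalues `x + k`:
linearly independent (`Module.End.eigenvectors_linearIndependent'`).  This contradicts
`not_linearIndependent_neb` (`ε(-1) = -1` by `HasNeb.neg_one`, `f ≠ 0`). -/
theorem isAlgebraic_qCoeff_prime {ε : DirichletCharacter ℂ N} {f : CuspForm (Gamma1 N) 1}
    (h : Hyp N ε f) (hneb : HasNeb N 1 ε f) {p : ℕ} (hp : p.Prime) (hpN : ¬ p ∣ N) :
    IsAlgebraic ℚ (ModularFormClass.qCoeff f p) := by
  by_contra hx
  have hx' : Transcendental ℚ (ModularFormClass.qCoeff f p) := hx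
  have hf0 : (f : ℍ → ℂ) ≠ 0 := by
    intro h0
    have h1 := h.one
    rw [ModularFormClass.qCoeff, h0, qExpansion_zero] at h1
    simp at h1
  have hodd : ε (-1) = -1 := HasNeb.neg_one hneb hf0
  choose σ hσalg hσx using fun k : ℕ =>
    Lib.AutExt.exists_ringEquiv_fixing_algebraic (ModularFormClass.qCoeff f p) hx' k
  choose g hgneb hgq using fun k : ℕ => exists_conj_neb ε f hneb (σ k)
  have hgneb' : ∀ k, HasNeb N 1 ε (g k) := fun k => by
    have := hgneb k
    rwa [ringHomComp_eq_self ε (σ k) (hσalg k)] at this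
  have hgH : ∀ k, Hyp N ε (g k) := fun k => by
    have := Hyp.conj h (σ k) (hgq k)
    rwa [ringHomComp_eq_self ε (σ k) (hσalg k)] at this
  refine not_linearIndependent_neb ε hodd g hgneb' ?_
  refine Module.End.eigenvectors_linearIndependent' (formalT p (ε (p : ZMod N)))
    (fun k : ℕ => ModularFormClass.qCoeff f p + (k : ℂ)) ?_ _ fun k => ?_
  · intro a b hab
    have h1 : (a : ℂ) = (b : ℂ) := add_left_cancel hab
    exact_mod_cast h1
  · refine ⟨Module.End.mem_eigenspace_iff.2 ?_, ?_⟩
    · rw [Hyp.formalT_eq (hgH k) hp hpN, hgq k p, hσx k]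
    · intro h0
      have h1 := (hgH k).one
      rw [ModularFormClass.qCoeff, h0] at h1
      simp at h1

/-- PROOF. Strong induction on `n`.  `n = 0`: `qCoeff_zero_cuspForm1`.  `n = 1`: `h.one`.
`n > 1`: `p := n.minFac ∤ N`, `n = p * n'`, `a_{p n'} = a_p a_{n'} - ε(p) a_{n'/p}` (`h.hecke`);
`n'` and `n'/p` are coprime to `N` and smaller.  (`IsAlgebraic.add/mul/sub/neg`.) -/
theorem isAlgebraic_qCoeff_coprime {ε : DirichletCharacter ℂ N} {f : CuspForm (Gamma1 N) 1}
    (h : Hyp N ε f)
    (halg : ∀ p : ℕ, p.Prime → ¬ p ∣ N → IsAlgebraic ℚ (ModularFormClass.qCoeff f p))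
    (n : ℕ) (hn : n.Coprime N) : IsAlgebraic ℚ (ModularFormClass.qCoeff f n) := by
  induction n using Nat.strong_induction_on with
  | _ n ih =>
    rcases Nat.lt_or_ge n 2 with h2 | h2
    · interval_cases n
      · rw [qCoeff_zero_cuspForm1]
        exact isAlgebraic_zero
      · rw [h.one]
        exact isAlgebraic_one
    · obtain ⟨p, hp, hpn⟩ := Nat.exists_prime_and_dvd (by omega : n ≠ 1)
      obtain ⟨n', rfl⟩ := hpn
      have hpN : ¬ p ∣ N := by
        intro hd
        have h3 := Nat.dvd_gcd (Dvd.intro n' rfl) hd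
        rw [Nat.Coprime.gcd_eq_one hn] at h3
        exact hp.one_lt.ne' (Nat.dvd_one.1 h3)
      have hn'pos : 0 < n' := by
        rcases Nat.eq_zero_or_pos n' with h0 | h0
        · subst h0
          omega
        · exact h0
      have hlt : n' < p * n' := by nlinarith [hp.two_le]
      have hcop' : n'.Coprime N := Nat.Coprime.coprime_dvd_left (Dvd.intro_left p rfl) hn
      have h1 := h.hecke p hp hpN n'
      have h4 : ModularFormClass.qCoeff f (p * n') =
          ModularFormClass.qCoeff f p * ModularFormClass.qCoeff f n' -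
            ε (p : ZMod N) * (if p ∣ n' then ModularFormClass.qCoeff f (n' / p) else 0) := by
        linear_combination h1
      rw [h4]
      refine ((halg p hp hpN).mul (ih n' hlt hcop')).sub ((isAlgebraic_dirichlet ε _).mul ?_)
      split_ifs with hd
      · exact ih (n' / p) (lt_of_le_of_lt (Nat.div_le_self _ _) hlt)
          (Nat.Coprime.coprime_dvd_left (Nat.div_dvd_of_dvd hd) hcop')
      · exact isAlgebraic_zero

end Fermat.Agent.S48.Rat
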