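import Mathlib
import Fermat.Agent.S48.Iface
import Fermat.Agent.S23.Basic

/-!
# S48-RAT : basic facts on `Γ₁(N)` and on the nebentypus condition `HasNeb`
-/

set_option autoImplicit false

open UpperHalfPlane ModularForm CongruenceSubgroup
open scoped MatrixGroups Manifold

namespace Fermat.Agent.S48.Rat

open Fermat.Agent.S23 (Nice IsMF G0)

/-- the image of `Γ₁(N)` in `GL₂(ℝ)`. -/
abbrev G1 (N : ℕ) : Subgroup (GL (Fin 2) ℝ) := (Gamma1 N : Subgroup (GL (Fin 2) ℝ))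

/-- the image of `Γ(N)` in `GL₂(ℝ)`. -/
abbrev GN (N : ℕ) : Subgroup (GL (Fin 2) ℝ) := (Gamma N : Subgroup (GL (Fin 2) ℝ))

/-- [imitate the Prelude lemma `CongruenceSubgroup.one_mem_strictPeriods_Gamma0`; the matrix
`!![1,1;0,1]` lies in `Γ₁(N)`] -/
theorem one_mem_strictPeriods_G1 (N : ℕ) : (1 : ℝ) ∈ (G1 N).strictPeriods := by
  have hT : ModularGroup.T ∈ CongruenceSubgroup.Gamma1 N := by
    rw [CongruenceSubgroup.Gamma1_mem]
    simp [ModularGroup.T]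
  have h := Subgroup.strictPeriods_eq_zmultiples_one_of_T_mem hT
  rw [h]
  exact AddSubgroup.mem_zmultiples (1 : ℝ)

theorem G1_le_G0 (N : ℕ) : G1 N ≤ G0 N := by
  rintro _ ⟨γ, hγ, rfl⟩
  exact ⟨γ, Gamma1_in_Gamma0 N hγ, rfl⟩

theorem GN_le_G1 (N : ℕ) : GN N ≤ G1 N := by
  rintro _ ⟨γ, hγ, rfl⟩
  refine ⟨γ, ?_, rfl⟩
  have h := Gamma_mem.1 hγ
  exact (Gamma1_mem N γ).2 ⟨h.1, h.2.2.2, h.2.2.1⟩

theorem nice_modularForm1 {N : ℕ} [NeZero N] {w : ℤ} (f : ModularForm (Gamma1 N) w) : Nice f :=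
  Fermat.Agent.S23.nice_of_modularForm (one_mem_strictPeriods_G1 N) f

theorem nice_cuspForm1 {N : ℕ} [NeZero N] {w : ℤ} (f : CuspForm (Gamma1 N) w) : Nice f :=
  ⟨by
    simpa using SlashInvariantFormClass.periodic_comp_ofComplex f
      (one_mem_strictPeriods_G1 N), f.holo',
    ModularFormClass.bdd_at_infty f⟩

/-- the constant term of a cusp form vanishes. -/
theorem qCoeff_zero_cuspForm1 {N : ℕ} [NeZero N] {w : ℤ} (f : CuspForm (Gamma1 N) w) :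
    ModularFormClass.qCoeff f 0 = 0 := by
  have hF := nice_cuspForm1 f
  have hper : Function.Periodic ((f : ℍ → ℂ) ∘ ofComplex) ((1 : ℝ) : ℂ) := by simpa using hF.per
  unfold ModularFormClass.qCoeff
  rw [qExpansion_coeff_zero one_pos hF.analyticAt hper]
  exact (CuspFormClass.zero_at_infty f).valueAtInfty_eq_zero

/-- `a d ≡ 1 mod N`. -/
theorem isUnit_of_mem_Gamma0 {N : ℕ} {γ : SL(2, ℤ)} (hγ : γ ∈ Gamma0 N) :
    IsUnit (((γ 1 1 : ℤ) : ZMod N)) := by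
  rw [Gamma0_mem] at hγ
  have hdet : γ 0 0 * γ 1 1 - γ 0 1 * γ 1 0 = 1 := by
    have := γ.det_coe
    rw [Matrix.det_fin_two] at this
    exact this
  have h2 : ((γ 0 0 : ℤ) : ZMod N) * ((γ 1 1 : ℤ) : ZMod N) = 1 := by
    have := congrArg (fun x : ℤ => (x : ZMod N)) hdet
    push_cast at this
    rw [hγ, mul_zero, sub_zero] at this
    exact this
  exact IsUnit.of_mul_eq_one_right _ h2

/-- only the values at units matter. -/
theorem HasNeb.congr {N : ℕ} {k : ℤ} {χ χ' : ZMod N → ℂ} {F : ℍ → ℂ}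
    (h : ∀ x : ZMod N, IsUnit x → χ x = χ' x) (hF : HasNeb N k χ F) : HasNeb N k χ' F := by
  intro γ hγ
  rw [hF γ hγ, h _ (isUnit_of_mem_Gamma0 hγ)]

/-- [take `γ = -1`] -/
theorem HasNeb.neg_one {N : ℕ} {χ : ZMod N → ℂ} {F : ℍ → ℂ} (hF : HasNeb N 1 χ F) (hF0 : F ≠ 0) :
    χ (-1) = -1 := by
  obtain ⟨z, hz⟩ : ∃ z, F z ≠ 0 := by
    by_contra hcon
    push Not at hcon
    exact hF0 (funext hcon)
  have hmem : (-1 : SL(2, ℤ)) ∈ Gamma0 N := by
    rw [Gamma0_mem]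
    simp
  have h1 := congrFun (hF (-1) hmem) z
  rw [ModularForm.SL_slash_apply] at h1
  have h2 : (-1 : SL(2, ℤ)) • z = z := by
    rw [ModularGroup.SL_neg_smul, one_smul]
  have h3 : denom (Matrix.SpecialLinearGroup.toGL
      ((Matrix.SpecialLinearGroup.map (Int.castRingHom ℝ)) (-1 : SL(2, ℤ)))) (z : ℂ) = -1 := by
    simp [UpperHalfPlane.denom]
  have h4 : (((-1 : SL(2, ℤ)) 1 1 : ℤ) : ZMod N) = -1 := by simp
  rw [h2, h3, h4] at h1
  simp only [Pi.smul_apply, smul_eq_mul] at h1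
  have h5 : ((-1 : ℂ)) ^ (-1 : ℤ) = -1 := by norm_num
  rw [h5] at h1
  have h6 : (χ (-1) + 1) * F z = 0 := by linear_combination -h1
  rcases mul_eq_zero.1 h6 with h | h
  · linear_combination h
  · exact absurd h hz

/-- products. -/
theorem HasNeb.mul {N : ℕ} {k k' : ℤ} {χ χ' : ZMod N → ℂ} {F F' : ℍ → ℂ}
    (hF : HasNeb N k χ F) (hF' : HasNeb N k' χ' F') :
    HasNeb N (k + k') (fun x => χ x * χ' x) (F * F') := by
  intro γ hγ
  rw [mul_slash_SL2, hF γ hγ, hF' γ hγ]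
  ext z
  simp only [Pi.mul_apply, Pi.smul_apply, smul_eq_mul]
  ring

/-- a modular form for a smaller arithmetic group which is invariant under a bigger one is a
modular form for the bigger one (same cusps: `Subgroup.IsArithmetic.isCusp_iff_isCusp_SL2Z`). -/
theorem IsMF_of_invariant {Γ Γ' : Subgroup (GL (Fin 2) ℝ)} [Γ.IsArithmetic] [Γ'.IsArithmetic]
    {w : ℤ} {F : ℍ → ℂ} (hF : IsMF Γ' w F) (hinv : ∀ γ ∈ Γ, F ∣[w] γ = F) : IsMF Γ w F := by
  obtain ⟨a, rfl⟩ := hF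
  exact ⟨{ toFun := a
           slash_action_eq' := hinv
           holo' := a.holo'
           bdd_at_cusps' := fun {c} hc => a.bdd_at_cusps' (by
            rw [Subgroup.IsArithmetic.isCusp_iff_isCusp_SL2Z] at hc ⊢
            exact hc) }, rfl⟩

/-- a form with nebentypus is invariant under `Γ₁(N)`. -/
theorem HasNeb.invariant_G1 {N : ℕ} {k : ℤ} {χ : ZMod N → ℂ} {F : ℍ → ℂ} (hχ : χ 1 = 1)
    (hF : HasNeb N k χ F) : ∀ γ ∈ G1 N, F ∣[k] γ = F := by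
  rintro _ ⟨γ, hγ, rfl⟩
  have h1 := hF γ (Gamma1_in_Gamma0 N hγ)
  rw [((Gamma1_mem N γ).1 hγ).2.1, hχ, one_smul] at h1
  exact h1

/-- a form with trivial nebentypus is invariant under `Γ₀(N)`. -/
theorem HasNeb.invariant_G0 {N : ℕ} {k : ℤ} {χ : ZMod N → ℂ} {F : ℍ → ℂ}
    (hχ : ∀ x : ZMod N, IsUnit x → χ x = 1)
    (hF : HasNeb N k χ F) : ∀ γ ∈ G0 N, F ∣[k] γ = F := by
  rintro _ ⟨γ, hγ, rfl⟩
  have h1 := hF γ hγ
  rw [hχ _ (isUnit_of_mem_Gamma0 hγ), one_smul] at h1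
  exact h1

end Fermat.Agent.S48.Rat
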