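import Fermat.Agent.S48.Rat.Algebraic
import Fermat.Agent.S48.Rat.Denom

/-!
# S48-RAT : arithmetic of the coefficients of the Eisenstein series
-/

set_option autoImplicit false

namespace Fermat.Agent.S48.Rat

variable {N : ℕ} [NeZero N]

theorem isIntegral_eisCoeff (χ : DirichletCharacter ℂ N) (n : ℕ) :
    IsIntegral ℤ (eisCoeff χ n) := by
  unfold eisCoeff
  refine IsIntegral.sum _ fun d _ => ?_
  refine (isIntegral_dirichlet χ _).mul (IsIntegral.pow ?_ 2)
  have h : (((n / d : ℕ) : ℂ)) = algebraMap ℤ ℂ ((n / d : ℕ) : ℤ) := by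
    rw [eq_intCast, Int.cast_natCast]
  rw [h]
  exact isIntegral_algebraMap

theorem isAlgebraic_eisCoeff (χ : DirichletCharacter ℂ N) (n : ℕ) :
    IsAlgebraic ℚ (eisCoeff χ n) :=
  ((isIntegral_eisCoeff χ n).tower_top (A := ℚ)).isAlgebraic

/-- PROOF. Choose `c : ZMod N → ℚ̄` with `ι (c x) = χ x` (`exists_preimage_of_isAlgebraic`,
`isAlgebraic_dirichlet`); `K₀ := IntermediateField.adjoin ℚ (Set.range c)` is finite dimensional
(`IntermediateField.finiteDimensional_adjoin`, finite set of algebraic elements);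
`γ n = ∑ d ∈ n.divisors, c d * (n / d)²` by injectivity of `ι`. -/
theorem exists_field_eisCoeff (χ : DirichletCharacter ℂ N) (ι : Qb →+* ℂ) (γ : ℕ → Qb)
    (hγ : ∀ n, ι (γ n) = eisCoeff χ n) :
    ∃ K₀ : IntermediateField ℚ Qb, FiniteDimensional ℚ K₀ ∧ ∀ n, γ n ∈ K₀ := by
  have hex : ∀ x : ZMod N, ∃ y : Qb, ι y = χ x := fun x =>
    exists_preimage_of_isAlgebraic ι (isAlgebraic_dirichlet χ x)
  choose c hc using hex
  refine ⟨IntermediateField.adjoin ℚ (Set.range c), ?_, fun n => ?_⟩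
  · exact IntermediateField.finiteDimensional_adjoin fun x _ =>
      ((AlgebraicClosure.isAlgebraic ℚ).isAlgebraic x).isIntegral
  · have h1 : γ n = ∑ d ∈ n.divisors, c (d : ZMod N) * ((n / d : ℕ) : Qb) ^ 2 := by
      apply ι.injective
      rw [hγ, eisCoeff, map_sum]
      refine Finset.sum_congr rfl fun d _ => ?_
      rw [map_mul, hc, map_pow, map_natCast ι]
    rw [h1]
    refine sum_mem fun d _ => mul_mem ?_ (pow_mem (natCast_mem _ _) 2)
    exact IntermediateField.subset_adjoin ℚ _ ⟨_, rfl⟩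

theorem inv_neg_one {χ : DirichletCharacter ℂ N} (h : χ (-1) = -1) : χ⁻¹ (-1) = -1 := by
  rw [MulChar.inv_apply_eq_inv', h]
  norm_num

end Fermat.Agent.S48.Rat
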