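import Fermat.Agent.S48.Rat.Prod

/-!
# S48-RAT : no infinite linearly independent family in `S₁(N, ε)`
-/

set_option autoImplicit false

open UpperHalfPlane ModularForm CongruenceSubgroup
open scoped MatrixGroups Manifold

namespace Fermat.Agent.S48.Rat

open Fermat.Agent.S23 (Nice IsMF G0)

variable {N : ℕ} [NeZero N]

theorem Indep_inv_neg_one {χ : DirichletCharacter ℂ N} (h : χ (-1) = -1) : χ⁻¹ (-1) = -1 := by
  rw [MulChar.inv_apply_eq_inv', h]
  norm_num

/-- PROOF. `E := exists_eis3 ε⁻¹` (`ε⁻¹(-1) = -1`), `qExp E ≠ 0` (`eisCoeff_one`).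
`F k := g k * E ∈ S₄(Γ₀(N))` (`exists_cuspForm_mul`), `qExp (F k) = qExp (g k) * qExp E`
(`Nice.qx_mul`, `nice_cuspForm1`, `nice_modularForm1`).  Multiplication by `qExp E` is an injective
linear endomorphism of `PowerSeries ℂ` (a domain), so the `qExp (F k)` are linearly independent
(`LinearIndependent.map'`), hence so are the `F k` (`LinearIndependent.of_comp` with the linear map
`S23.coeffMap N 4`, or its `PowerSeries` version), in the finite dimensional space
`CuspForm (Gamma0 N) 4` (`S23.finiteDimensional_cuspForm`): contradiction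
(`LinearIndependent.finite`, `ℕ` is infinite). -/
theorem not_linearIndependent_neb (ε : DirichletCharacter ℂ N) (hε : ε (-1) = -1)
    (g : ℕ → CuspForm (Gamma1 N) 1) (hg : ∀ k, HasNeb N 1 ε (g k)) :
    ¬ LinearIndependent ℂ (fun k => qExpansion 1 (g k)) := by
  intro hLI
  obtain ⟨E, hEneb, hEq⟩ := exists_eis3 ε⁻¹ (Indep_inv_neg_one hε)
  have hE0 : qExpansion 1 E ≠ 0 := by
    intro h0
    have h1 := hEq 1
    unfold ModularFormClass.qCoeff at h1
    rw [h0, eisCoeff_one] at h1
    simp at h1
  choose F hF using fun k => exists_cuspForm_mul ε (g k) (hg k) E hEneb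
  have hq : ∀ k, qExpansion 1 (F k) = qExpansion 1 (g k) * qExpansion 1 E := by
    intro k
    rw [hF k, (nice_cuspForm1 (g k)).qx_mul (nice_modularForm1 E)]
  -- multiplication by `qExp E`
  have h1 : LinearIndependent ℂ (fun k => qExpansion 1 (g k) * qExpansion 1 E) := by
    have := hLI.map' (LinearMap.mulRight ℂ (qExpansion 1 E)) (by
      rw [LinearMap.ker_eq_bot]
      intro a b hab
      exact mul_right_cancel₀ hE0 hab)
    exact this
  -- pass to sequences
  let T : PowerSeries ℂ →ₗ[ℂ] (ℕ → ℂ) :=
    { toFun := fun φ n => PowerSeries.coeff n φ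
      map_add' := fun φ ψ => by funext n; simp
      map_smul' := fun c φ => by funext n; simp }
  have hT : LinearMap.ker T = ⊥ := by
    rw [LinearMap.ker_eq_bot]
    intro a b hab
    ext n
    exact congrFun hab n
  have h2 : LinearIndependent ℂ (fun k => S23.coeffMap N 4 (F k)) := by
    have h := h1.map' T hT
    have e : (fun k => S23.coeffMap N 4 (F k)) =
        (⇑T ∘ fun k => qExpansion 1 (g k) * qExpansion 1 E) := by
      funext k n
      show (qExpansion 1 (F k)).coeff n = (qExpansion 1 (g k) * qExpansion 1 E).coeff n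
      rw [hq k]
    rw [e]
    exact h
  have h3 : LinearIndependent ℂ F := LinearIndependent.of_comp (S23.coeffMap N 4) h2
  have := S23.finiteDimensional_cuspForm N 4
  have := h3.finite
  exact not_finite ℕ

end Fermat.Agent.S48.Rat
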