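import Fermat.Agent.S48.Rat.Alg
import Fermat.Agent.S48.Rat.Rankin

/-!
# S48-RAT : exports

* `Fermat.Agent.S48.Rat.alg_of : NebStatement → DeplStatement → AlgStatement`
* `Fermat.Agent.S48.Rat.rankin_of : NebStatement → MSStatement → RankinStatement`
* `Fermat.Agent.S48.Rat.exists_conj_neb` : conjugation of weight one forms with nebentypus
* `Fermat.Agent.S48.Rat.exists_eis3` : the weight 3 Eisenstein series with character
-/
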