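import Fermat.Agent.S48.Rat.Eis.Main
import Fermat.Agent.S23.Main

/-!
# S48-RAT : `f · E ∈ S₄(Γ₀(N))` for `f ∈ S₁(N, ε)`, `E ∈ M₃(N, ε⁻¹)`
-/

set_option autoImplicit false

open UpperHalfPlane ModularForm CongruenceSubgroup
open scoped MatrixGroups Manifold

namespace Fermat.Agent.S48.Rat

open Fermat.Agent.S23 (Nice IsMF G0)

variable {N : ℕ} [NeZero N]

theorem Prod_inv (ε : DirichletCharacter ℂ N) (f E : ℍ → ℂ)
    (hf : HasNeb N 1 ε f)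
    (hE : HasNeb N 3 (ε⁻¹ : DirichletCharacter ℂ N) E) :
    ∀ γ ∈ G0 N, (f * E) ∣[(4 : ℤ)] γ = f * E := by
  have hunit : ∀ x : ZMod N, IsUnit x → ε x * (ε⁻¹ : DirichletCharacter ℂ N) x = 1 := by
    intro x hx
    rw [← MulChar.mul_apply, mul_inv_cancel, MulChar.one_apply hx]
  have hneb : HasNeb N 4 (fun x => ε x * (ε⁻¹ : DirichletCharacter ℂ N) x) (f * E) := by
    have h := HasNeb.mul hf hE
    rwa [show (1 : ℤ) + 3 = 4 from by norm_num] at h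
  exact HasNeb.invariant_G0 hunit hneb

theorem Prod_zero {f E : ℍ → ℂ} {c : OnePoint ℝ} (hc : IsCusp c 𝒮ℒ) (hf : c.IsZeroAt f 1)
    (hE : c.IsBoundedAt E 3) : c.IsZeroAt (f * E) 4 := by
  rw [OnePoint.isZeroAt_iff_forall_SL2Z hc]
  intro γ hγ
  have h1 : IsZeroAtImInfty (f ∣[(1 : ℤ)] γ) :=
    (OnePoint.isZeroAt_iff_forall_SL2Z hc).1 hf γ hγ
  have h2 : IsBoundedAtImInfty (E ∣[(3 : ℤ)] γ) :=
    (OnePoint.isBoundedAt_iff_forall_SL2Z hc).1 hE γ hγ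
  have h3 : (f * E) ∣[(4 : ℤ)] γ = (f ∣[(1 : ℤ)] γ) * (E ∣[(3 : ℤ)] γ) := mul_slash_SL2 1 3 γ _ _
  rw [h3]
  exact Filter.ZeroAtFilter.mul_boundedAtFilter h1 h2

/-- PROOF. Invariance under `Γ₀(N)`: `HasNeb.mul`, `HasNeb.invariant_G0` (`ε(d) ε⁻¹(d) = 1` for units
`d`).  Holomorphy: product.  Vanishing at the cusps: `Subgroup.IsArithmetic.isCusp_iff_isCusp_SL2Z`,
`OnePoint.isZeroAt_iff_forall_SL2Z`, `(f E) ∣[4] γ = (f ∣[1] γ) (E ∣[3] γ)` (`mul_slash_SL2`), the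
first factor is zero at `i∞` (`f` is a cusp form on `Γ₁(N)`), the second one is bounded. -/
theorem exists_cuspForm_mul (ε : DirichletCharacter ℂ N) (f : CuspForm (Gamma1 N) 1)
    (hf : HasNeb N 1 ε f) (E : ModularForm (Gamma1 N) 3)
    (hE : HasNeb N 3 (ε⁻¹ : DirichletCharacter ℂ N) E) :
    ∃ F : CuspForm (Gamma0 N) 4, (F : ℍ → ℂ) = (f : ℍ → ℂ) * (E : ℍ → ℂ) := by
  refine ⟨{ toFun := (f : ℍ → ℂ) * (E : ℍ → ℂ)
            slash_action_eq' := Prod_inv ε f E hf hE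
            holo' := f.holo'.mul E.holo'
            zero_at_cusps' := ?_ }, rfl⟩
  intro c hc
  rw [Subgroup.IsArithmetic.isCusp_iff_isCusp_SL2Z] at hc
  have hc1 : IsCusp c (G1 N) := by
    rw [Subgroup.IsArithmetic.isCusp_iff_isCusp_SL2Z]
    exact hc
  exact Prod_zero hc (f.zero_at_cusps' hc1) (E.bdd_at_cusps' hc1)

/-- a cusp form on `Γ₀(N)` is a modular form on `Γ₁(N)`. -/
theorem exists_modularForm1_of_cuspForm0 {w : ℤ} (F : CuspForm (Gamma0 N) w) :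
    ∃ F' : ModularForm (Gamma1 N) w, (F' : ℍ → ℂ) = F := by
  refine ⟨{ toFun := F
            slash_action_eq' := fun γ hγ => F.slash_action_eq' γ (G1_le_G0 N hγ)
            holo' := F.holo'
            bdd_at_cusps' := ?_ }, rfl⟩
  intro c hc
  have hc0 : IsCusp c (G0 N) := by
    rw [Subgroup.IsArithmetic.isCusp_iff_isCusp_SL2Z] at hc ⊢
    exact hc
  exact fun g hg => (F.zero_at_cusps' hc0 g hg).boundedAtFilter

/-- PROOF. `(g ∣[1] γ) (E ∣[3] γ) = (g E) ∣[4] γ = g E`, `E ∣[3] γ = χ⁻¹(d) E`, so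
`(χ⁻¹(d) • g ∣[1] γ - g) * E = 0`; `UpperHalfPlane.mul_eq_zero_iff` (identity theorem, see its use in
`Fermat/Agent/S23/Transport.lean`); `χ⁻¹(d) χ(d) = 1` as `d` is a unit. -/
theorem hasNeb_of_mul_eq (χ : DirichletCharacter ℂ N) {g E G : ℍ → ℂ} (hg : MDiff g)
    (hE : MDiff E) (hE0 : E ≠ 0) (hEneb : HasNeb N 3 (χ⁻¹ : DirichletCharacter ℂ N) E)
    (hG : ∀ γ : SL(2, ℤ), γ ∈ Gamma0 N → G ∣[(4 : ℤ)] γ = G) (h : g * E = G) :
    HasNeb N 1 χ g := by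
  intro γ hγ
  have hu : IsUnit (((γ 1 1 : ℤ) : ZMod N)) := isUnit_of_mem_Gamma0 hγ
  have hunit : χ ((γ 1 1 : ℤ) : ZMod N) * (χ⁻¹ : DirichletCharacter ℂ N) ((γ 1 1 : ℤ) : ZMod N) = 1 := by
    rw [← MulChar.mul_apply, mul_inv_cancel, MulChar.one_apply hu]
  have h1 : (g * E) ∣[(4 : ℤ)] γ = (g ∣[(1 : ℤ)] γ) * (E ∣[(3 : ℤ)] γ) := mul_slash_SL2 1 3 γ g E
  rw [h, hG γ hγ, hEneb γ hγ, ← h] at h1
  have h2 : (g ∣[(1 : ℤ)] γ - χ ((γ 1 1 : ℤ) : ZMod N) • g) * E = 0 := by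
    ext z
    have h3 := congrFun h1 z
    simp only [Pi.mul_apply, Pi.smul_apply, smul_eq_mul, Pi.sub_apply, Pi.zero_apply] at h3 ⊢
    linear_combination (-(χ ((γ 1 1 : ℤ) : ZMod N))) * h3 -
      ((g ∣[(1 : ℤ)] γ) z * E z) * hunit
  rcases (UpperHalfPlane.mul_eq_zero_iff ((hg.slash 1 _).sub (hg.const_smul _)) hE).mp h2 with
    h4 | h4
  · exact sub_eq_zero.mp h4
  · exact absurd h4 hE0

end Fermat.Agent.S48.Rat
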